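/-
S19lib / E / Fibres  (helper1, block FF-E, part 1).

From an analytic germ `G : AnalyticGerm A ℓ J` with unramified centres:
the class map `cls : J →+ J ⧸ K`, inertia-fixed centres `ctr c` of the residue polydiscs, the
coordinates `tau x = coord (x - ctr (cls x)) ∈ 𝔪_A^g`, their inertia-equivariance, injectivity on
fibres, and the three exact transition formulas (addition, negation, conjugation by the
decomposition group) in terms of `add₂`, `ng`, `cj` and inertia-fixed constants of `𝔪_A^g`.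
No analysis here.
-/
import Mathlib
import Fermat.Agent.S19lib.Iface

set_option autoImplicit false

noncomputable section

namespace Fermat.Agent.S19lib.E

open scoped Pointwise

local notation "Qb" => AlgebraicClosure ℚ
local notation "GQ" => (AlgebraicClosure ℚ ≃ₐ[ℚ] AlgebraicClosure ℚ)

/-! ### the decomposition group and the valuation ring -/

section Val

variable {A : ValuationSubring Qb}

theorem IA_le_DA : IA A ≤ DA A := by
  rintro σ ⟨g, -, rfl⟩
  exact g.2

theorem smul_mem_of_mem_DA {σ : GQ} (hσ : σ ∈ DA A) {a : Qb} (ha : a ∈ A) : σ a ∈ A := by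
  have h : σ • A = A := hσ
  have h1 : σ • a ∈ σ • A := ValuationSubring.smul_mem_pointwise_smul σ a A ha
  rw [h] at h1
  exact h1

theorem smul_mem_iff_of_mem_DA {σ : GQ} (hσ : σ ∈ DA A) {a : Qb} : σ a ∈ A ↔ a ∈ A := by
  refine ⟨fun h => ?_, smul_mem_of_mem_DA hσ⟩
  have h1 := smul_mem_of_mem_DA ((DA A).inv_mem hσ) h
  have h2 : σ⁻¹ (σ a) = a := by
    show σ.symm (σ a) = a
    exact σ.symm_apply_apply a
  rwa [h2] at h1

theorem mem_mSet_iff {a : Qb} : a ∈ mSet A ↔ a ∈ A ∧ (a = 0 ∨ a⁻¹ ∉ A) := by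
  show A.valuation a < 1 ↔ _
  constructor
  · intro h
    refine ⟨(A.valuation_le_one_iff a).mp h.le, ?_⟩
    by_cases ha : a = 0
    · exact Or.inl ha
    · right
      intro hinv
      have h1 : A.valuation a⁻¹ ≤ 1 := (A.valuation_le_one_iff _).mpr hinv
      rw [map_inv₀] at h1
      have h2 : A.valuation a ≠ 0 := (Valuation.ne_zero_iff _).mpr ha
      have h3 : (1 : A.ValueGroup) ≤ A.valuation a := by
        have := (inv_le_one₀ (zero_lt_iff.mpr h2)).mp h1
        exact this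
      exact absurd h (not_lt.mpr h3)
  · rintro ⟨hA, h0 | hinv⟩
    · rw [h0, map_zero]; exact zero_lt_one
    · have h1 : A.valuation a ≤ 1 := (A.valuation_le_one_iff a).mpr hA
      refine lt_of_le_of_ne h1 fun h => hinv ?_
      rw [← A.valuation_le_one_iff, map_inv₀, h, inv_one]

theorem smul_mem_mSet_of_mem_DA {σ : GQ} (hσ : σ ∈ DA A) {a : Qb} (ha : a ∈ mSet A) :
    σ a ∈ mSet A := by
  rw [mem_mSet_iff] at ha ⊢
  refine ⟨smul_mem_of_mem_DA hσ ha.1, ?_⟩
  rcases ha.2 with h0 | hinv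
  · left; rw [h0, map_zero]
  · right
    rw [← map_inv₀, smul_mem_iff_of_mem_DA hσ]
    exact hinv

theorem mSet_subset : ∀ {a : Qb}, a ∈ mSet A → a ∈ A := fun h => (mem_mSet_iff.mp h).1

/-- inertia is normal in the decomposition group -/
theorem conj_mem_IA {σ ρ : GQ} (hσ : σ ∈ DA A) (hρ : ρ ∈ IA A) : σ⁻¹ * ρ * σ ∈ IA A := by
  obtain ⟨g, hg, rfl⟩ := hρ
  let s : DA A := ⟨σ, hσ⟩
  have hn : s⁻¹ * g * s ∈ ValuationSubring.inertiaSubgroup ℚ A := by
    have hnorm : (ValuationSubring.inertiaSubgroup ℚ A).Normal := by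
      unfold ValuationSubring.inertiaSubgroup
      infer_instance
    have := hnorm.conj_mem g hg s⁻¹
    simpa using this
  exact ⟨s⁻¹ * g * s, hn, rfl⟩

end Val

/-! ### fibres, centres, coordinates -/

section Germ

variable {A : ValuationSubring Qb} {ℓ : ℕ} {J : Type} [AddCommGroup J] [DistribMulAction GQ J]
  (G : AnalyticGerm A ℓ J) (hc : HasUnramifiedCentres G)

/-- the class map `J → J ⧸ K` (the residue polydisc of a point) -/
def cls : J →+ J ⧸ G.K := QuotientAddGroup.mk' G.K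

theorem cls_eq_iff {x y : J} : cls G x = cls G y ↔ x - y ∈ G.K := by
  rw [cls, QuotientAddGroup.mk'_apply, QuotientAddGroup.mk'_apply, QuotientAddGroup.eq]
  constructor
  · intro h
    have h1 := G.K.neg_mem h
    have h2 : -(-x + y) = x - y := by abel
    rwa [h2] at h1
  · intro h
    have h1 := G.K.neg_mem h
    have h2 : -(x - y) = -x + y := by abel
    rwa [h2] at h1

theorem cls_eq_zero_iff {x : J} : cls G x = 0 ↔ x ∈ G.K := by
  rw [← map_zero (cls G), cls_eq_iff, sub_zero]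

include hc in
/-- inertia does not move the residue polydiscs -/
theorem smul_sub_mem {σ : GQ} (hσ : σ ∈ IA A) (x : J) : σ • x - x ∈ G.K := by
  obtain ⟨y, hy, hxy⟩ := hc x
  have h1 : σ • (x - y) ∈ G.K := G.smul_mem σ (IA_le_DA hσ) _ hxy
  have h2 : σ • x - x = σ • (x - y) - (x - y) := by
    rw [smul_sub, hy σ hσ]; abel
  rw [h2]
  exact G.K.sub_mem h1 hxy

include hc in
theorem cls_smul {σ : GQ} (hσ : σ ∈ IA A) (x : J) : cls G (σ • x) = cls G x :=
  (cls_eq_iff G).mpr (smul_sub_mem G hc hσ x)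

/-- the decomposition group permutes the residue polydiscs -/
theorem cls_smul_congr {σ : GQ} (hσ : σ ∈ DA A) {x y : J} (h : cls G x = cls G y) :
    cls G (σ • x) = cls G (σ • y) := by
  rw [cls_eq_iff] at h ⊢
  rw [← smul_sub]
  exact G.smul_mem σ hσ _ h

/-- an inertia-fixed centre of every residue polydisc -/
def ctr (c : J ⧸ G.K) : J := (hc (Quotient.out c)).choose

theorem ctr_fixed (c : J ⧸ G.K) {σ : GQ} (hσ : σ ∈ IA A) : σ • ctr G hc c = ctr G hc c :=
  (hc (Quotient.out c)).choose_spec.1 σ hσ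

theorem cls_ctr (c : J ⧸ G.K) : cls G (ctr G hc c) = c := by
  have h := (hc (Quotient.out c)).choose_spec.2
  have h1 : cls G (Quotient.out c) = cls G (ctr G hc c) := (cls_eq_iff G).mpr h
  rw [← h1]
  exact Quotient.out_eq c

theorem sub_ctr_mem (x : J) : x - ctr G hc (cls G x) ∈ G.K :=
  (cls_eq_iff G).mp (cls_ctr G hc (cls G x)).symm

/-- **the coordinates**: `tau x = coord (x - centre of the polydisc of x)` -/
def tau (x : J) : Fin G.g → Qb := G.coord (x - ctr G hc (cls G x))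

theorem tau_mem (x : J) (i : Fin G.g) : tau G hc x i ∈ mSet A :=
  G.coord_mem _ (sub_ctr_mem G hc x) i

theorem Θ_tau (x : J) : G.Θ (tau G hc x) = x - ctr G hc (cls G x) :=
  G.Θ_coord _ (sub_ctr_mem G hc x)

theorem eq_Θ_tau_add (x : J) : x = G.Θ (tau G hc x) + ctr G hc (cls G x) := by
  rw [Θ_tau]; abel

/-- the coordinates are injective on every residue polydisc -/
theorem tau_injOn {x y : J} (hcl : cls G x = cls G y) (ht : tau G hc x = tau G hc y) : x = y := by
  rw [eq_Θ_tau_add G hc x, eq_Θ_tau_add G hc y, hcl, ht]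

/-- the coordinates of `K` are inertia-equivariant -/
theorem coord_smul {σ : GQ} (hσ : σ ∈ IA A) {z : J} (hz : z ∈ G.K) :
    G.coord (σ • z) = fun i => σ (G.coord z i) := by
  have hu : ∀ i, G.coord z i ∈ mSet A := G.coord_mem z hz
  have hu' : ∀ i, σ (G.coord z i) ∈ mSet A := fun i =>
    smul_mem_mSet_of_mem_DA (IA_le_DA hσ) (hu i)
  have h1 := G.Θ_smul σ hσ (G.coord z) hu
  rw [G.Θ_coord z hz] at h1
  rw [← h1]
  exact G.coord_Θ _ hu'

/-- **the coordinates are inertia-equivariant** -/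
theorem tau_smul {σ : GQ} (hσ : σ ∈ IA A) (x : J) :
    tau G hc (σ • x) = fun i => σ (tau G hc x i) := by
  rw [tau, cls_smul G hc hσ, tau]
  have h : σ • x - ctr G hc (cls G x) = σ • (x - ctr G hc (cls G x)) := by
    rw [smul_sub, ctr_fixed G hc _ hσ]
  rw [h]
  exact coord_smul G hσ (sub_ctr_mem G hc x)

/-- coordinates of inertia-fixed points of `K` are inertia-fixed -/
theorem coord_mem_A0 {z : J} (hz : z ∈ G.K) (hfix : ∀ σ ∈ IA A, σ • z = z) (i : Fin G.g) :
    G.coord z i ∈ A0 A := by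
  refine ⟨mSet_subset (G.coord_mem z hz i), fun σ hσ => ?_⟩
  have h := congrFun (coord_smul G hσ hz) i
  rw [hfix σ hσ] at h
  exact h.symm

/-! ### the three germ operations -/

/-- the group law in coordinates -/
def add₂ (u u' : Fin G.g → Qb) : Fin G.g → Qb := G.coord (G.Θ u + G.Θ u')

/-- negation in coordinates -/
def ng (u : Fin G.g → Qb) : Fin G.g → Qb := G.coord (- G.Θ u)

/-- conjugation by `σ` in coordinates -/
def cj (σ : GQ) (u : Fin G.g → Qb) : Fin G.g → Qb := fun i => σ (G.coord (σ⁻¹ • G.Θ u) i)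

theorem add₂_mem {u u' : Fin G.g → Qb} (hu : ∀ i, u i ∈ mSet A) (hu' : ∀ i, u' i ∈ mSet A)
    (i : Fin G.g) : add₂ G u u' i ∈ mSet A :=
  G.coord_mem _ (G.K.add_mem (G.Θ_mem u hu) (G.Θ_mem u' hu')) i

theorem Θ_add₂ {u u' : Fin G.g → Qb} (hu : ∀ i, u i ∈ mSet A) (hu' : ∀ i, u' i ∈ mSet A) :
    G.Θ (add₂ G u u') = G.Θ u + G.Θ u' :=
  G.Θ_coord _ (G.K.add_mem (G.Θ_mem u hu) (G.Θ_mem u' hu'))

theorem ng_mem {u : Fin G.g → Qb} (hu : ∀ i, u i ∈ mSet A) (i : Fin G.g) :
    ng G u i ∈ mSet A :=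
  G.coord_mem _ (G.K.neg_mem (G.Θ_mem u hu)) i

theorem Θ_ng {u : Fin G.g → Qb} (hu : ∀ i, u i ∈ mSet A) : G.Θ (ng G u) = - G.Θ u :=
  G.Θ_coord _ (G.K.neg_mem (G.Θ_mem u hu))

/-- `coord (z + z')` for `z, z' ∈ K` -/
theorem coord_add {z z' : J} (hz : z ∈ G.K) (hz' : z' ∈ G.K) :
    G.coord (z + z') = add₂ G (G.coord z) (G.coord z') := by
  rw [add₂, G.Θ_coord z hz, G.Θ_coord z' hz']

/-! ### the transition constants -/

/-- the constant of the addition formula -/
def eAdd (c c' : J ⧸ G.K) : Fin G.g → Qb :=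
  G.coord (ctr G hc c + ctr G hc c' - ctr G hc (c + c'))

/-- the constant of the negation formula -/
def eNeg (c : J ⧸ G.K) : Fin G.g → Qb :=
  G.coord (- ctr G hc c - ctr G hc (-c))

/-- the constant of the conjugation formula -/
def eConj (σ : GQ) (c c' : J ⧸ G.K) : Fin G.g → Qb :=
  G.coord (ctr G hc c - σ • ctr G hc c')

theorem eAdd_arg_mem (c c' : J ⧸ G.K) :
    ctr G hc c + ctr G hc c' - ctr G hc (c + c') ∈ G.K := by
  rw [← cls_eq_zero_iff, map_sub, map_add, cls_ctr, cls_ctr, cls_ctr, sub_self]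

theorem eNeg_arg_mem (c : J ⧸ G.K) : - ctr G hc c - ctr G hc (-c) ∈ G.K := by
  rw [← cls_eq_zero_iff, map_sub, map_neg, cls_ctr, cls_ctr, sub_self]

theorem eAdd_mem (c c' : J ⧸ G.K) (i : Fin G.g) : eAdd G hc c c' i ∈ mSet A :=
  G.coord_mem _ (eAdd_arg_mem G hc c c') i

theorem eNeg_mem (c : J ⧸ G.K) (i : Fin G.g) : eNeg G hc c i ∈ mSet A :=
  G.coord_mem _ (eNeg_arg_mem G hc c) i

theorem eAdd_mem_A0 (c c' : J ⧸ G.K) (i : Fin G.g) : eAdd G hc c c' i ∈ A0 A :=
  coord_mem_A0 G (eAdd_arg_mem G hc c c') (fun σ hσ => by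
    rw [smul_sub, smul_add, ctr_fixed G hc _ hσ, ctr_fixed G hc _ hσ, ctr_fixed G hc _ hσ]) i

theorem eNeg_mem_A0 (c : J ⧸ G.K) (i : Fin G.g) : eNeg G hc c i ∈ A0 A :=
  coord_mem_A0 G (eNeg_arg_mem G hc c) (fun σ hσ => by
    rw [smul_sub, smul_neg, ctr_fixed G hc _ hσ, ctr_fixed G hc _ hσ]) i

/-- **addition formula** -/
theorem tau_add (x x' : J) :
    tau G hc (x + x') =
      add₂ G (add₂ G (tau G hc x) (tau G hc x')) (eAdd G hc (cls G x) (cls G x')) := by
  have hx := sub_ctr_mem G hc x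
  have hx' := sub_ctr_mem G hc x'
  have he := eAdd_arg_mem G hc (cls G x) (cls G x')
  have h1 : x + x' - ctr G hc (cls G (x + x')) =
      ((x - ctr G hc (cls G x)) + (x' - ctr G hc (cls G x'))) +
        (ctr G hc (cls G x) + ctr G hc (cls G x') - ctr G hc (cls G x + cls G x')) := by
    rw [map_add]; abel
  rw [tau, h1, coord_add G (G.K.add_mem hx hx') he, coord_add G hx hx']
  rfl

/-- **negation formula** -/
theorem tau_neg (x : J) :
    tau G hc (-x) = add₂ G (ng G (tau G hc x)) (eNeg G hc (cls G x)) := by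
  have hx := sub_ctr_mem G hc x
  have he := eNeg_arg_mem G hc (cls G x)
  have h1 : -x - ctr G hc (cls G (-x)) =
      (-(x - ctr G hc (cls G x))) + (- ctr G hc (cls G x) - ctr G hc (-cls G x)) := by
    rw [map_neg]; abel
  rw [tau, h1, coord_add G (G.K.neg_mem hx) he]
  congr 1
  rw [ng, Θ_tau]

theorem eConj_arg_mem {σ : GQ} (hσ : σ ∈ DA A) (x : J) :
    ctr G hc (cls G x) - σ • ctr G hc (cls G (σ⁻¹ • x)) ∈ G.K := by
  have h1 : σ • (σ⁻¹ • x - ctr G hc (cls G (σ⁻¹ • x))) ∈ G.K :=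
    G.smul_mem σ hσ _ (sub_ctr_mem G hc (σ⁻¹ • x))
  rw [smul_sub, smul_inv_smul] at h1
  have h2 := G.K.sub_mem h1 (sub_ctr_mem G hc x)
  have h3 : x - σ • ctr G hc (cls G (σ⁻¹ • x)) - (x - ctr G hc (cls G x)) =
      ctr G hc (cls G x) - σ • ctr G hc (cls G (σ⁻¹ • x)) := by abel
  rwa [h3] at h2

theorem eConj_mem {σ : GQ} (hσ : σ ∈ DA A) (x : J) (i : Fin G.g) :
    eConj G hc σ (cls G x) (cls G (σ⁻¹ • x)) i ∈ mSet A :=
  G.coord_mem _ (eConj_arg_mem G hc hσ x) i

theorem eConj_mem_A0 {σ : GQ} (hσ : σ ∈ DA A) (x : J) (i : Fin G.g) :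
    eConj G hc σ (cls G x) (cls G (σ⁻¹ • x)) i ∈ A0 A :=
  coord_mem_A0 G (eConj_arg_mem G hc hσ x) (fun ρ hρ => by
    rw [smul_sub, ctr_fixed G hc _ hρ]
    congr 1
    have h1 : ρ • σ • ctr G hc (cls G (σ⁻¹ • x)) =
        σ • ((σ⁻¹ * ρ * σ) • ctr G hc (cls G (σ⁻¹ • x))) := by
      rw [← mul_smul, ← mul_smul, ← mul_assoc, ← mul_assoc, mul_inv_cancel, one_mul]
    rw [h1, ctr_fixed G hc _ (conj_mem_IA hσ hρ)]) i

/-- **conjugation formula**: the coordinates transported by `σ ∈ D` -/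
theorem conj_tau {σ : GQ} (hσ : σ ∈ DA A) (x : J) :
    (fun i => σ (tau G hc (σ⁻¹ • x) i)) =
      cj G σ (add₂ G (tau G hc x) (eConj G hc σ (cls G x) (cls G (σ⁻¹ • x)))) := by
  have hx := sub_ctr_mem G hc x
  have he := eConj_arg_mem G hc hσ x
  set z : J := x - σ • ctr G hc (cls G (σ⁻¹ • x)) with hz
  have hzK : z ∈ G.K := by
    have h1 : z = (x - ctr G hc (cls G x)) +
        (ctr G hc (cls G x) - σ • ctr G hc (cls G (σ⁻¹ • x))) := by rw [hz]; abel
    rw [h1]
    exact G.K.add_mem hx he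
  have h2 : G.coord z = add₂ G (tau G hc x) (eConj G hc σ (cls G x) (cls G (σ⁻¹ • x))) := by
    have h1 : z = (x - ctr G hc (cls G x)) +
        (ctr G hc (cls G x) - σ • ctr G hc (cls G (σ⁻¹ • x))) := by rw [hz]; abel
    rw [h1, coord_add G hx he]
    rfl
  have h3 : σ⁻¹ • x - ctr G hc (cls G (σ⁻¹ • x)) = σ⁻¹ • z := by
    rw [hz, smul_sub, inv_smul_smul]
  funext i
  rw [cj, ← h2, G.Θ_coord z hzK, tau, h3]

end Germ

end Fermat.Agent.S19lib.E
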