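/-
S19lib / E / Trunc  (helper1, block FF-E, part 2).

Finite-level ("modulo `d`") calculus: on a FINITE set of points of the polydisc `𝔪_A^ι`, an
`A0`-analytic function is a polynomial over `A0` modulo `d • A`, for every `d ≠ 0`
(rank one of `A`); such approximations compose.  No completeness, no power series.
-/
import Mathlib
import Fermat.Agent.S19lib.E.Fibres
import Fermat.Agent.S18lib.Asm.RankOne

set_option autoImplicit false

noncomputable section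

namespace Fermat.Agent.S19lib.E

local notation "Qb" => AlgebraicClosure ℚ
local notation "GQ" => (AlgebraicClosure ℚ ≃ₐ[ℚ] AlgebraicClosure ℚ)

/-! ### rank one -/

section RankOne

variable {A : ValuationSubring Qb}

theorem natCast_mem_mSet {ℓ : ℕ} (hA : A.LiesOverPrime ℓ) : ((ℓ : ℕ) : Qb) ∈ mSet A :=
  (A.mem_nonunits_iff).mp hA

/-- `e ∈ d • A` as soon as `v(e) ≤ v(d)` -/
theorem dvd_of_val_le {d e : Qb} (hd : d ≠ 0) (h : A.valuation e ≤ A.valuation d) :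
    ∃ a ∈ A, e = d * a := by
  refine ⟨e / d, ?_, by field_simp⟩
  rw [← A.valuation_le_one_iff, map_div₀]
  have h0 : 0 < A.valuation d := by
    rw [zero_lt_iff]
    exact (A.valuation.ne_zero_iff).mpr hd
  exact (div_le_one₀ h0).mpr h

/-- **rank one**: the powers of an element of `𝔪_A` are eventually divisible by `d ≠ 0`. -/
theorem exists_pow_eq_mul {ℓ : ℕ} [Fact ℓ.Prime] (hA : A.LiesOverPrime ℓ) {a : Qb}
    (ha : a ∈ mSet A) {d : Qb} (hd : d ≠ 0) : ∃ n : ℕ, ∃ b ∈ A, a ^ n = d * b := by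
  by_cases hdA : d ∈ A
  · have ha' : (⟨a, mSet_subset ha⟩ : A) ∈ IsLocalRing.maximalIdeal A := by
      rw [A.valuation_lt_one_iff]
      exact ha
    have hd' : (⟨d, hdA⟩ : A) ≠ 0 := fun h => hd (congrArg Subtype.val h)
    obtain ⟨n, hn⟩ := Fermat.Agent.S18lib.rankOne_of_liesOverPrime A hA _ ha' _ hd'
    rcases ValuationRing.dvd_total ((⟨a, mSet_subset ha⟩ : A) ^ n) (⟨d, hdA⟩ : A) with h | h
    · exact absurd h hn
    · obtain ⟨b, hb⟩ := h
      refine ⟨n, b.1, b.2, ?_⟩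
      have := congrArg Subtype.val hb
      simpa using this
  · have hinv : d⁻¹ ∈ A := (A.mem_or_inv_mem d).resolve_left hdA
    exact ⟨0, d⁻¹, hinv, by rw [pow_zero, mul_inv_cancel₀ hd]⟩

theorem exists_pow_val_le {ℓ : ℕ} [Fact ℓ.Prime] (hA : A.LiesOverPrime ℓ) {a : Qb}
    (ha : a ∈ mSet A) {d : Qb} (hd : d ≠ 0) : ∃ n : ℕ, A.valuation a ^ n ≤ A.valuation d := by
  obtain ⟨n, b, hb, h⟩ := exists_pow_eq_mul hA ha hd
  refine ⟨n, ?_⟩
  rw [← map_pow, h, map_mul]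
  exact mul_le_of_le_one_right' ((A.valuation_le_one_iff b).mpr hb)

/-- every element of `ℚ̄` is brought into `A` by a power of `ℓ` -/
theorem exists_pow_mul_mem {ℓ : ℕ} [Fact ℓ.Prime] (hA : A.LiesOverPrime ℓ) (a : Qb) :
    ∃ n : ℕ, ((ℓ : ℕ) : Qb) ^ n * a ∈ A := by
  by_cases ha : a ∈ A
  · exact ⟨0, by simpa using ha⟩
  · have hinv : a⁻¹ ∈ A := (A.mem_or_inv_mem a).resolve_left ha
    have ha0 : a ≠ 0 := fun h => ha (h ▸ A.zero_mem)
    obtain ⟨n, b, hb, h⟩ := exists_pow_eq_mul hA (natCast_mem_mSet hA) (inv_ne_zero ha0)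
    refine ⟨n, ?_⟩
    rw [h, mul_comm a⁻¹ b, mul_assoc, inv_mul_cancel₀ ha0, mul_one]
    exact hb

/-- uniform order of truncation on a finite set of points -/
theorem exists_order {ℓ : ℕ} [Fact ℓ.Prime] (hA : A.LiesOverPrime ℓ) {ι : Type} [Finite ι]
    {S : Set (ι → Qb)} (hS : S.Finite) (hSm : ∀ u ∈ S, ∀ i, u i ∈ mSet A) {d : Qb}
    (hd : d ≠ 0) :
    ∃ M : ℕ, ∀ u ∈ S, ∀ e : Qb, SmallTo A ℓ u M e → ∃ a ∈ A, e = d * a := by
  have : Finite S := hS.to_subtype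
  let w : Option (S × ι) → Qb := fun k => k.elim ((ℓ : ℕ) : Qb) (fun p => p.1.1 p.2)
  have hw : ∀ k, w k ∈ mSet A := by
    intro k
    cases k with
    | none => exact natCast_mem_mSet hA
    | some p => exact hSm p.1.1 p.1.2 p.2
  obtain ⟨k₀, hk₀⟩ := Finite.exists_max (fun k => A.valuation (w k))
  obtain ⟨n, hn⟩ := exists_pow_val_le hA (hw k₀) hd
  refine ⟨n, fun u hu e he => dvd_of_val_le hd (le_trans ?_ hn)⟩
  exact he (A.valuation (w k₀)) (hk₀ none) (fun i => hk₀ (some (⟨u, hu⟩, i)))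

end RankOne

/-! ### approximation modulo `d` on a set of points -/

section Approx

variable {A : ValuationSubring Qb}

/-- `f` agrees on `S` with a polynomial over `A0`, modulo `d • A` -/
def ApproxOn (A : ValuationSubring Qb) (d : Qb) {ι : Type} (S : Set (ι → Qb))
    (f : (ι → Qb) → Qb) : Prop :=
  ∃ P : MvPolynomial ι (A0 A), ∀ u ∈ S, ∃ a ∈ A, f u - MvPolynomial.aeval u P = d * a

theorem A0_le : ∀ {a : Qb}, a ∈ A0 A → a ∈ A := fun h => h.1

theorem aeval_mem {ι : Type} (P : MvPolynomial ι (A0 A)) {a : ι → Qb} (ha : ∀ i, a i ∈ A) :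
    MvPolynomial.aeval a P ∈ A := by
  induction P using MvPolynomial.induction_on with
  | C c =>
    rw [MvPolynomial.aeval_C]
    exact c.2.1
  | add p q hp hq =>
    rw [map_add]
    exact A.add_mem _ _ hp hq
  | mul_X p i hp =>
    rw [map_mul, MvPolynomial.aeval_X]
    exact A.mul_mem _ _ hp (ha i)

/-- polynomials over `A0` are Lipschitz for congruences modulo `d • A` -/
theorem aeval_sub_aeval {ι : Type} (P : MvPolynomial ι (A0 A)) {a b : ι → Qb}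
    (ha : ∀ i, a i ∈ A) (hb : ∀ i, b i ∈ A) {d : Qb}
    (h : ∀ i, ∃ r ∈ A, a i - b i = d * r) :
    ∃ r ∈ A, MvPolynomial.aeval a P - MvPolynomial.aeval b P = d * r := by
  induction P using MvPolynomial.induction_on with
  | C c =>
    exact ⟨0, A.zero_mem, by rw [MvPolynomial.aeval_C, MvPolynomial.aeval_C, sub_self, mul_zero]⟩
  | add p q hp hq =>
    obtain ⟨r₁, hr₁, h₁⟩ := hp
    obtain ⟨r₂, hr₂, h₂⟩ := hq
    refine ⟨r₁ + r₂, A.add_mem _ _ hr₁ hr₂, ?_⟩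
    rw [map_add, map_add, mul_add, ← h₁, ← h₂]
    ring
  | mul_X p i hp =>
    obtain ⟨r₁, hr₁, h₁⟩ := hp
    obtain ⟨r₂, hr₂, h₂⟩ := h i
    refine ⟨r₁ * a i + MvPolynomial.aeval b p * r₂,
      A.add_mem _ _ (A.mul_mem _ _ hr₁ (ha i)) (A.mul_mem _ _ (aeval_mem p hb) hr₂), ?_⟩
    rw [map_mul, map_mul, MvPolynomial.aeval_X, MvPolynomial.aeval_X]
    have e1 : MvPolynomial.aeval a p = MvPolynomial.aeval b p + d * r₁ := by
      rw [← h₁]; ring
    have e2 : a i = b i + d * r₂ := by rw [← h₂]; ring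
    rw [e1]
    conv_lhs => rw [e2]
    rw [e2]
    ring

theorem approxOn_const (d : Qb) {ι : Type} (S : Set (ι → Qb)) {e : Qb} (he : e ∈ A0 A) :
    ApproxOn A d S (fun _ => e) :=
  ⟨MvPolynomial.C ⟨e, he⟩, fun u _ => ⟨0, A.zero_mem, by
    rw [MvPolynomial.aeval_C, mul_zero]
    exact sub_self e⟩⟩

theorem approxOn_coord (d : Qb) {ι : Type} (S : Set (ι → Qb)) (i : ι) :
    ApproxOn A d S (fun u => u i) :=
  ⟨MvPolynomial.X i, fun u _ => ⟨0, A.zero_mem, by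
    rw [MvPolynomial.aeval_X, mul_zero, sub_self]⟩⟩

theorem ApproxOn.mono {d : Qb} {ι : Type} {S S' : Set (ι → Qb)} {f : (ι → Qb) → Qb}
    (h : ApproxOn A d S f) (hS : S' ⊆ S) : ApproxOn A d S' f := by
  obtain ⟨P, hP⟩ := h
  exact ⟨P, fun u hu => hP u (hS hu)⟩

theorem ApproxOn.congr {d : Qb} {ι : Type} {S : Set (ι → Qb)} {f f' : (ι → Qb) → Qb}
    (h : ApproxOn A d S f) (hff' : ∀ u ∈ S, f u = f' u) : ApproxOn A d S f' := by
  obtain ⟨P, hP⟩ := h
  exact ⟨P, fun u hu => by rw [← hff' u hu]; exact hP u hu⟩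

/-- **composition** of approximations modulo `d` -/
theorem ApproxOn.comp {ι κ : Type} {d : Qb} {S : Set (ι → Qb)} {W : Set (κ → Qb)}
    {F : (κ → Qb) → Qb} {G : (ι → Qb) → κ → Qb}
    (hF : ApproxOn A d W F) (hG : ∀ k, ApproxOn A d S (fun u => G u k))
    (hGW : ∀ u ∈ S, G u ∈ W) (hSA : ∀ u ∈ S, ∀ i, u i ∈ A) (hGA : ∀ u ∈ S, ∀ k, G u k ∈ A) :
    ApproxOn A d S (fun u => F (G u)) := by
  obtain ⟨P, hP⟩ := hF
  choose Q hQ using hG
  refine ⟨MvPolynomial.bind₁ Q P, fun u hu => ?_⟩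
  obtain ⟨r₁, hr₁, h₁⟩ := hP (G u) (hGW u hu)
  obtain ⟨r₂, hr₂, h₂⟩ := aeval_sub_aeval P (a := G u)
    (b := fun k => MvPolynomial.aeval u (Q k)) (hGA u hu)
    (fun k => aeval_mem (Q k) (hSA u hu)) (d := d) (fun k => hQ k u hu)
  refine ⟨r₁ + r₂, A.add_mem _ _ hr₁ hr₂, ?_⟩
  rw [MvPolynomial.aeval_bind₁, mul_add, ← h₁, ← h₂]
  ring

/-- **truncation**: an `A0`-analytic function is, on a finite set of points of the polydisc,
a polynomial over `A0` modulo `d • A`. -/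
theorem approxOn_of_a0Analytic {ℓ : ℕ} [Fact ℓ.Prime] (hA : A.LiesOverPrime ℓ) {ι : Type}
    [Finite ι] {f : (ι → Qb) → Qb} (hf : A0Analytic A ℓ f) {S : Set (ι → Qb)} (hS : S.Finite)
    (hSm : ∀ u ∈ S, ∀ i, u i ∈ mSet A) {d : Qb} (hd : d ≠ 0) : ApproxOn A d S f := by
  obtain ⟨M, hM⟩ := exists_order hA hS hSm hd
  obtain ⟨P, hPc, hP⟩ := hf M
  have hmem : P ∈ Set.range (MvPolynomial.map (A0 A).subtype) := by
    rw [MvPolynomial.mem_range_map_iff_coeffs_subset]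
    intro c hc
    obtain ⟨m, -, rfl⟩ := MvPolynomial.mem_coeffs_iff.mp (Finset.mem_coe.mp hc)
    exact ⟨⟨P.coeff m, hPc m⟩, rfl⟩
  obtain ⟨P', rfl⟩ := hmem
  refine ⟨P', fun u hu => ?_⟩
  have := hM u hu _ (hP u (hSm u hu))
  rw [MvPolynomial.eval_map] at this
  exact this

end Approx

end Fermat.Agent.S19lib.E
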