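/-
S19lib / E / Order  (helper1, block FF-E, part 3).

The three (INT) facts for the coordinates `tau` of `E/Fibres.lean` on a finite set `Γ` of points:
modulo `d • A` (any `d ≠ 0`), on every fibre (pair of fibres) of `cls`,
`tau (x + x')`, `tau (-x)` and `σ (tau (σ⁻¹ • x))` (`σ` in the decomposition group) are
polynomials over `A0` in `tau x`, `tau x'`.
-/
import Mathlib
import Fermat.Agent.S19lib.E.Trunc

set_option autoImplicit false

noncomputable section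

namespace Fermat.Agent.S19lib.E

local notation "Qb" => AlgebraicClosure ℚ
local notation "GQ" => (AlgebraicClosure ℚ ≃ₐ[ℚ] AlgebraicClosure ℚ)

section Germ

variable {ℓ : ℕ} [Fact ℓ.Prime] {A : ValuationSubring Qb} (hA : A.LiesOverPrime ℓ)
  {J : Type} [AddCommGroup J] [DistribMulAction GQ J] (G : AnalyticGerm A ℓ J)

include hA

/-- the group law, modulo `d` -/
theorem approxOn_add₂ {S : Set (Fin G.g ⊕ Fin G.g → Qb)} (hS : S.Finite)
    (hSm : ∀ w ∈ S, ∀ k, w k ∈ mSet A) {d : Qb} (hd : d ≠ 0) (i : Fin G.g) :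
    ApproxOn A d S
      (fun w => add₂ G (fun j => w (Sum.inl j)) (fun j => w (Sum.inr j)) i) :=
  approxOn_of_a0Analytic hA (G.add_analytic i) hS hSm hd

/-- negation, modulo `d` -/
theorem approxOn_ng {S : Set (Fin G.g → Qb)} (hS : S.Finite)
    (hSm : ∀ u ∈ S, ∀ k, u k ∈ mSet A) {d : Qb} (hd : d ≠ 0) (i : Fin G.g) :
    ApproxOn A d S (fun u => ng G u i) :=
  approxOn_of_a0Analytic hA (G.neg_analytic i) hS hSm hd

/-- conjugation, modulo `d` -/
theorem approxOn_cj {σ : GQ} (hσ : σ ∈ DA A) {S : Set (Fin G.g → Qb)} (hS : S.Finite)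
    (hSm : ∀ u ∈ S, ∀ k, u k ∈ mSet A) {d : Qb} (hd : d ≠ 0) (i : Fin G.g) :
    ApproxOn A d S (fun u => cj G σ u i) :=
  approxOn_of_a0Analytic hA (G.conj_analytic σ hσ i) hS hSm hd

/-- translation by a constant of `(𝔪 ∩ A0)^g`, modulo `d` -/
theorem approxOn_add_const {S : Set (Fin G.g → Qb)} (hS : S.Finite)
    (hSm : ∀ u ∈ S, ∀ k, u k ∈ mSet A) {d : Qb} (hd : d ≠ 0) {e : Fin G.g → Qb}
    (hem : ∀ k, e k ∈ mSet A) (he0 : ∀ k, e k ∈ A0 A) (i : Fin G.g) :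
    ApproxOn A d S (fun u => add₂ G u e i) := by
  have hW : ((fun u : Fin G.g → Qb => (Sum.elim u e : Fin G.g ⊕ Fin G.g → Qb)) '' S).Finite :=
    hS.image _
  have hWm : ∀ w ∈ (fun u : Fin G.g → Qb => (Sum.elim u e : Fin G.g ⊕ Fin G.g → Qb)) '' S,
      ∀ k, w k ∈ mSet A := by
    rintro w ⟨u, hu, rfl⟩ k
    cases k with
    | inl j => exact hSm u hu j
    | inr j => exact hem j
  have h := ApproxOn.comp (approxOn_add₂ hA G hW hWm hd i)
    (G := fun u : Fin G.g → Qb => (Sum.elim u e : Fin G.g ⊕ Fin G.g → Qb)) (S := S)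
    (fun k => by
      cases k with
      | inl j => exact approxOn_coord d S j
      | inr j => exact approxOn_const d S (he0 j))
    (fun u hu => ⟨u, hu, rfl⟩)
    (fun u hu k => mSet_subset (hSm u hu k))
    (fun u hu k => by
      cases k with
      | inl j => exact mSet_subset (hSm u hu j)
      | inr j => exact mSet_subset (hem j))
  exact h

/-- the right-hand side of the addition formula, modulo `d` -/
theorem approxOn_add_add {S : Set (Fin G.g ⊕ Fin G.g → Qb)} (hS : S.Finite)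
    (hSm : ∀ w ∈ S, ∀ k, w k ∈ mSet A) {d : Qb} (hd : d ≠ 0) {e : Fin G.g → Qb}
    (hem : ∀ k, e k ∈ mSet A) (he0 : ∀ k, e k ∈ A0 A) (i : Fin G.g) :
    ApproxOn A d S
      (fun w => add₂ G (add₂ G (fun j => w (Sum.inl j)) (fun j => w (Sum.inr j))) e i) := by
  let T : (Fin G.g ⊕ Fin G.g → Qb) → (Fin G.g ⊕ Fin G.g → Qb) :=
    fun w => Sum.elim (add₂ G (fun j => w (Sum.inl j)) (fun j => w (Sum.inr j))) e
  have hW : (T '' S).Finite := hS.image _
  have hWm : ∀ w ∈ T '' S, ∀ k, w k ∈ mSet A := by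
    rintro w ⟨u, hu, rfl⟩ k
    cases k with
    | inl j =>
      exact add₂_mem G (fun j => hSm u hu (Sum.inl j)) (fun j => hSm u hu (Sum.inr j)) j
    | inr j => exact hem j
  have h := ApproxOn.comp (approxOn_add₂ hA G hW hWm hd i) (G := T) (S := S)
    (fun k => by
      cases k with
      | inl j => exact approxOn_add₂ hA G hS hSm hd j
      | inr j => exact approxOn_const d S (he0 j))
    (fun u hu => ⟨u, hu, rfl⟩)
    (fun u hu k => mSet_subset (hSm u hu k))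
    (fun u hu k => mSet_subset (hWm _ ⟨u, hu, rfl⟩ k))
  exact h

/-- the right-hand side of the negation formula, modulo `d` -/
theorem approxOn_ng_add {S : Set (Fin G.g → Qb)} (hS : S.Finite)
    (hSm : ∀ u ∈ S, ∀ k, u k ∈ mSet A) {d : Qb} (hd : d ≠ 0) {e : Fin G.g → Qb}
    (hem : ∀ k, e k ∈ mSet A) (he0 : ∀ k, e k ∈ A0 A) (i : Fin G.g) :
    ApproxOn A d S (fun u => add₂ G (ng G u) e i) := by
  let T : (Fin G.g → Qb) → (Fin G.g ⊕ Fin G.g → Qb) := fun u => Sum.elim (ng G u) e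
  have hW : (T '' S).Finite := hS.image _
  have hWm : ∀ w ∈ T '' S, ∀ k, w k ∈ mSet A := by
    rintro w ⟨u, hu, rfl⟩ k
    cases k with
    | inl j => exact ng_mem G (hSm u hu) j
    | inr j => exact hem j
  have h := ApproxOn.comp (approxOn_add₂ hA G hW hWm hd i) (G := T) (S := S)
    (fun k => by
      cases k with
      | inl j => exact approxOn_ng hA G hS hSm hd j
      | inr j => exact approxOn_const d S (he0 j))
    (fun u hu => ⟨u, hu, rfl⟩)
    (fun u hu k => mSet_subset (hSm u hu k))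
    (fun u hu k => mSet_subset (hWm _ ⟨u, hu, rfl⟩ k))
  exact h

/-- the right-hand side of the conjugation formula, modulo `d` -/
theorem approxOn_cj_add {σ : GQ} (hσ : σ ∈ DA A) {S : Set (Fin G.g → Qb)} (hS : S.Finite)
    (hSm : ∀ u ∈ S, ∀ k, u k ∈ mSet A) {d : Qb} (hd : d ≠ 0) {e : Fin G.g → Qb}
    (hem : ∀ k, e k ∈ mSet A) (he0 : ∀ k, e k ∈ A0 A) (i : Fin G.g) :
    ApproxOn A d S (fun u => cj G σ (add₂ G u e) i) := by
  let T : (Fin G.g → Qb) → (Fin G.g → Qb) := fun u => add₂ G u e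
  have hW : (T '' S).Finite := hS.image _
  have hWm : ∀ w ∈ T '' S, ∀ k, w k ∈ mSet A := by
    rintro w ⟨u, hu, rfl⟩ k
    exact add₂_mem G (hSm u hu) hem k
  have h := ApproxOn.comp (approxOn_cj hA G hσ hW hWm hd i) (G := T) (S := S)
    (fun k => approxOn_add_const hA G hS hSm hd hem he0 k)
    (fun u hu => ⟨u, hu, rfl⟩)
    (fun u hu k => mSet_subset (hSm u hu k))
    (fun u hu k => mSet_subset (hWm _ ⟨u, hu, rfl⟩ k))
  exact h

/-! ### the (INT) facts on a finite set of points -/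

variable (hc : HasUnramifiedCentres G)

/-- **(INT-add)** -/
theorem add_approx {Γ : Set J} (hΓ : Γ.Finite) {d : Qb} (hd : d ≠ 0) (c₁ c₂ : J ⧸ G.K) :
    ∃ Φ : Fin G.g → MvPolynomial (Fin G.g ⊕ Fin G.g) (A0 A),
      ∀ x ∈ Γ, ∀ x' ∈ Γ, cls G x = c₁ → cls G x' = c₂ → ∀ i, ∃ a ∈ A,
        tau G hc (x + x') i -
          MvPolynomial.aeval (Sum.elim (tau G hc x) (tau G hc x')) (Φ i) = d * a := by
  let f : J × J → (Fin G.g ⊕ Fin G.g → Qb) := fun p => Sum.elim (tau G hc p.1) (tau G hc p.2)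
  let S : Set (Fin G.g ⊕ Fin G.g → Qb) :=
    f '' {p | p.1 ∈ Γ ∧ p.2 ∈ Γ ∧ cls G p.1 = c₁ ∧ cls G p.2 = c₂}
  have hS : S.Finite := by
    apply Set.Finite.image
    exact (hΓ.prod hΓ).subset (fun p hp => ⟨hp.1, hp.2.1⟩)
  have hSm : ∀ w ∈ S, ∀ k, w k ∈ mSet A := by
    rintro w ⟨p, -, rfl⟩ k
    cases k with
    | inl j => exact tau_mem G hc p.1 j
    | inr j => exact tau_mem G hc p.2 j
  have h := fun i => approxOn_add_add hA G hS hSm hd (eAdd_mem G hc c₁ c₂)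
    (eAdd_mem_A0 G hc c₁ c₂) i
  choose Φ hΦ using h
  refine ⟨Φ, fun x hx x' hx' h1 h2 i => ?_⟩
  have := hΦ i (f (x, x')) ⟨(x, x'), ⟨hx, hx', h1, h2⟩, rfl⟩
  rw [tau_add, h1, h2]
  exact this

/-- **(INT-neg)** -/
theorem neg_approx {Γ : Set J} (hΓ : Γ.Finite) {d : Qb} (hd : d ≠ 0) (c₁ : J ⧸ G.K) :
    ∃ Φ : Fin G.g → MvPolynomial (Fin G.g) (A0 A),
      ∀ x ∈ Γ, cls G x = c₁ → ∀ i, ∃ a ∈ A,
        tau G hc (-x) i - MvPolynomial.aeval (tau G hc x) (Φ i) = d * a := by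
  let S : Set (Fin G.g → Qb) := tau G hc '' {x | x ∈ Γ ∧ cls G x = c₁}
  have hS : S.Finite := by
    apply Set.Finite.image
    exact hΓ.subset (fun x hx => hx.1)
  have hSm : ∀ w ∈ S, ∀ k, w k ∈ mSet A := by
    rintro w ⟨x, -, rfl⟩ k
    exact tau_mem G hc x k
  have h := fun i => approxOn_ng_add hA G hS hSm hd (eNeg_mem G hc c₁) (eNeg_mem_A0 G hc c₁) i
  choose Φ hΦ using h
  refine ⟨Φ, fun x hx h1 i => ?_⟩
  have := hΦ i (tau G hc x) ⟨x, ⟨hx, h1⟩, rfl⟩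
  rw [tau_neg, h1]
  exact this

/-- **(INT-conj)** -/
theorem conj_approx {Γ : Set J} (hΓ : Γ.Finite) {σ : GQ} (hσ : σ ∈ DA A) {d : Qb} (hd : d ≠ 0)
    (c₁ : J ⧸ G.K) :
    ∃ Φ : Fin G.g → MvPolynomial (Fin G.g) (A0 A),
      ∀ x ∈ Γ, cls G x = c₁ → ∀ i, ∃ a ∈ A,
        σ (tau G hc (σ⁻¹ • x) i) - MvPolynomial.aeval (tau G hc x) (Φ i) = d * a := by
  by_cases hne : ∃ x₀ ∈ Γ, cls G x₀ = c₁
  · obtain ⟨x₀, hx₀, hx₀c⟩ := hne
    let S : Set (Fin G.g → Qb) := tau G hc '' {x | x ∈ Γ ∧ cls G x = c₁}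
    have hS : S.Finite := by
      apply Set.Finite.image
      exact hΓ.subset (fun x hx => hx.1)
    have hSm : ∀ w ∈ S, ∀ k, w k ∈ mSet A := by
      rintro w ⟨x, -, rfl⟩ k
      exact tau_mem G hc x k
    have hem := eConj_mem G hc hσ x₀
    have he0 := eConj_mem_A0 G hc hσ x₀
    have h := fun i => approxOn_cj_add hA G hσ hS hSm hd hem he0 i
    choose Φ hΦ using h
    refine ⟨Φ, fun x hx h1 i => ?_⟩
    have := hΦ i (tau G hc x) ⟨x, ⟨hx, h1⟩, rfl⟩
    have h2 : cls G (σ⁻¹ • x) = cls G (σ⁻¹ • x₀) :=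
      cls_smul_congr G ((DA A).inv_mem hσ) (h1.trans hx₀c.symm)
    have h3 : σ (tau G hc (σ⁻¹ • x) i) = _ := congrFun (conj_tau G hc hσ x) i
    rw [h3, h2, h1, ← hx₀c]
    exact this
  · refine ⟨fun _ => 0, fun x hx h1 => ?_⟩
    exact absurd ⟨x, hx, h1⟩ hne

end Germ

end Fermat.Agent.S19lib.E
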