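/-
S19lib / E / Stmt  (helper1, block FF-E, part 4).

`orderStmt : OrderStmt` — the `A0`-order of `A0`-analytic functions on a finite Galois module
`Γ ⊆ J` attached to an analytic germ with unramified centres: `E/Fibres` (fibres, coordinates,
exact transition formulas) + `E/Order` ((INT) facts modulo `d`) fed to helper2's
`F.hopfOrder_of_coords`.
-/
import Mathlib
import Fermat.Agent.S19lib.E.Order
import Fermat.Agent.S19lib.F.JLevel

set_option autoImplicit false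

noncomputable section

namespace Fermat.Agent.S19lib.E

local notation "Qb" => AlgebraicClosure ℚ
local notation "GQ" => (AlgebraicClosure ℚ ≃ₐ[ℚ] AlgebraicClosure ℚ)

/-- untyping a family of polynomials over `A0` -/
theorem exists_untyped {A : ValuationSubring Qb} {ι κ : Type} (Φ : κ → MvPolynomial ι (A0 A)) :
    ∃ Ψ : κ → MvPolynomial ι Qb, (∀ i m, (Ψ i).coeff m ∈ A0 A) ∧
      ∀ i (u : ι → Qb), MvPolynomial.eval u (Ψ i) = MvPolynomial.aeval u (Φ i) := by
  refine ⟨fun i => MvPolynomial.map (A0 A).subtype (Φ i), fun i m => ?_, fun i u => ?_⟩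
  · rw [MvPolynomial.coeff_map]
    exact ((Φ i).coeff m).2
  · rw [MvPolynomial.eval_map]
    rfl

/-- **FF-E**: `OrderStmt`. -/
theorem orderStmt : OrderStmt := by
  intro ℓ _ A hA J _ _ G hc Γ hΓ
  have hfin : (Γ : Set J).Finite := by
    have := hΓ.finite
    exact Set.toFinite _
  refine F.hopfOrder_of_coords A hA Γ hΓ (cls G) (tau G hc)
    (fun σ hσ x => cls_smul G hc hσ x)
    (fun σ hσ x y h => cls_smul_congr G hσ h)
    (fun σ hσ x i => congrFun (tau_smul G hc hσ x) i)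
    (fun x i => mSet_subset (tau_mem G hc x i))
    (fun x y h1 h2 => tau_injOn G hc h1 h2)
    ?_ ?_ ?_
  · intro d _ hd c₁ c₂
    obtain ⟨Φ, hΦ⟩ := add_approx hA G hc hfin hd c₁ c₂
    obtain ⟨Ψ, hΨc, hΨ⟩ := exists_untyped Φ
    refine ⟨Ψ, hΨc, fun x hx x' hx' h1 h2 i => ?_⟩
    rw [hΨ]
    exact hΦ x hx x' hx' h1 h2 i
  · intro d _ hd c₁
    obtain ⟨Φ, hΦ⟩ := neg_approx hA G hc hfin hd c₁
    obtain ⟨Ψ, hΨc, hΨ⟩ := exists_untyped Φ
    refine ⟨Ψ, hΨc, fun x hx h1 i => ?_⟩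
    rw [hΨ]
    exact hΦ x hx h1 i
  · intro σ hσ d _ hd c₁
    obtain ⟨Φ, hΦ⟩ := conj_approx hA G hc hfin hσ hd c₁
    obtain ⟨Ψ, hΨc, hΨ⟩ := exists_untyped Φ
    refine ⟨Ψ, hΨc, fun x hx h1 i => ?_⟩
    rw [hΨ]
    exact hΦ x hx h1 i

end Fermat.Agent.S19lib.E
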